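import Mathlib
import Fermat.Prelude.Def_AlgebraicCurve_DivisorClassGroup

/-!
# Places of `F / K` coming from a Dedekind model (Program R, package R1)

Let `R` be a Dedekind domain with fraction field `F`, containing the field `K`.  The prelude
attaches a place `Place.ofHeightOneSpectrum P` of `F / K` to every nonzero prime `P` of `R`.
We show: this map is injective, its range consists of the places whose valuation ring contains
`R`, the order function of the place is the `P`-adic one, and the degree of the place is
`[R ⧸ P : K]`.
-/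

set_option autoImplicit false
set_option linter.unusedSectionVars false

namespace Fermat.Agent.ProgramR.FF

open AlgebraicCurve IsDedekindDomain WithZero

variable {K F : Type*} [Field K] [Field F] [Algebra K F]

/-- The order function of a place is computed by any normalised `ℤᵐ⁰`-valued valuation with the
same valuation ring. -/
theorem ord_eq_neg_log_of_valuationSubring_eq (v : Place K F) (w : Valuation F ℤᵐ⁰)
    (hw : w.valuationSubring = v.toValuationSubring) {t : F} (ht : w t = exp (-1 : ℤ)) (f : F) :
    v.ord f = -(log (w f)) := by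
  rcases eq_or_ne f 0 with rfl | hf
  · simp
  obtain ⟨π, hπ⟩ := IsDiscreteValuationRing.exists_irreducible v.toValuationSubring
  have hmem : ∀ g : F, g ∈ v.toValuationSubring ↔ w g ≤ 1 := by
    intro g
    rw [← hw, Valuation.mem_valuationSubring_iff]
  -- units have value one
  have hunit : ∀ u : v.toValuationSubringˣ, w ((u : v.toValuationSubring) : F) = 1 := by
    intro u
    have h1 : w ((u : v.toValuationSubring) : F) ≤ 1 :=
      (hmem _).mp (u : v.toValuationSubring).2
    have h2 : w (((u⁻¹ : v.toValuationSubringˣ) : v.toValuationSubring) : F) ≤ 1 :=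
      (hmem _).mp ((u⁻¹ : v.toValuationSubringˣ) : v.toValuationSubring).2
    have h3 : w ((u : v.toValuationSubring) : F) *
        w (((u⁻¹ : v.toValuationSubringˣ) : v.toValuationSubring) : F) = 1 := by
      rw [← map_mul, ← MulMemClass.coe_mul, Units.mul_inv, OneMemClass.coe_one, map_one]
    refine le_antisymm h1 ?_
    calc (1 : ℤᵐ⁰) = w ((u : v.toValuationSubring) : F) *
        w (((u⁻¹ : v.toValuationSubringˣ) : v.toValuationSubring) : F) := h3.symm
      _ ≤ w ((u : v.toValuationSubring) : F) * 1 := by gcongr
      _ = w ((u : v.toValuationSubring) : F) := mul_one _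
  have hπF : (π : F) ≠ 0 := by
    simpa [ne_eq, ZeroMemClass.coe_eq_zero] using hπ.ne_zero
  have hwπ0 : w (π : F) ≠ 0 := (Valuation.ne_zero_iff _).mpr hπF
  have hπ1 : w (π : F) < 1 := by
    refine lt_of_le_of_ne ((hmem _).mp π.2) ?_
    intro h1
    have hinv : ((π : F))⁻¹ ∈ v.toValuationSubring := by
      rw [hmem, map_inv₀, h1, inv_one]
    apply hπ.not_isUnit
    refine isUnit_iff_exists_inv.mpr ⟨⟨(π : F)⁻¹, hinv⟩, ?_⟩
    ext
    simp [hπF]
  have key : ∀ g : F, g ≠ 0 → w g = w (π : F) ^ (v.ord g) := by
    intro g hg
    obtain ⟨u, hu⟩ := v.exists_unit_mul_zpow hg hπ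
    conv_lhs => rw [hu]
    rw [map_mul, hunit, one_mul, map_zpow₀]
  have ht0 : t ≠ 0 := by
    intro h
    rw [h, map_zero] at ht
    exact exp_ne_zero ht.symm
  have h4 := key t ht0
  set k : ℤ := log (w (π : F)) with hk
  have hk' : w (π : F) = exp k := (exp_log hwπ0).symm
  have hkneg : k < 0 := by
    have : exp k < exp (0 : ℤ) := by rw [← hk', exp_zero]; exact hπ1
    exact exp_lt_exp.mp this
  have hk1 : k = -1 := by
    rw [ht, hk', ← exp_zsmul, exp_inj, smul_eq_mul] at h4
    have hpos : 0 < v.ord t := by
      by_contra hcon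
      have hcon' := not_lt.mp hcon
      nlinarith
    nlinarith
  rw [key f hf, hk', hk1, ← exp_zsmul, log_exp, smul_eq_mul]
  ring

/-- Elements of the valuation ring have non-negative order. -/
theorem ord_nonneg_of_mem (v : Place K F) {f : F} (hf : f ∈ v.toValuationSubring) :
    0 ≤ v.ord f := by
  rcases eq_or_ne f 0 with rfl | hf0
  · simp
  have h1 : v.adicValuation f ≤ 1 := by
    have := v.adicValuation_coe ⟨f, hf⟩
    rw [this]
    exact HeightOneSpectrum.intValuation_le_one _ _
  have h0 : v.adicValuation f ≠ 0 := v.adicValuation_ne_zero hf0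
  have : log (v.adicValuation f) ≤ log (1 : ℤᵐ⁰) := (log_le_log h0 one_ne_zero).mpr h1
  rw [log_one] at this
  unfold Place.ord
  omega

/-- Elements of non-negative order lie in the valuation ring. -/
theorem mem_of_ord_nonneg (v : Place K F) {f : F} (hf : 0 ≤ v.ord f) :
    f ∈ v.toValuationSubring := by
  rcases eq_or_ne f 0 with rfl | hf0
  · exact v.toValuationSubring.zero_mem
  obtain ⟨π, hπ⟩ := IsDiscreteValuationRing.exists_irreducible v.toValuationSubring
  obtain ⟨u, hu⟩ := v.exists_unit_mul_zpow hf0 hπ
  rw [hu]
  obtain ⟨n, hn⟩ := Int.eq_ofNat_of_zero_le hf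
  rw [hn, zpow_natCast]
  exact v.toValuationSubring.mul_mem _ _ (u : v.toValuationSubring).2
    (v.toValuationSubring.pow_mem π.2 n)

theorem mem_iff_ord_nonneg (v : Place K F) (f : F) :
    f ∈ v.toValuationSubring ↔ 0 ≤ v.ord f :=
  ⟨ord_nonneg_of_mem v, mem_of_ord_nonneg v⟩

section Dedekind

variable {R : Type*} [CommRing R] [IsDedekindDomain R] [Algebra R F] [IsFractionRing R F]
  [Algebra K R] [IsScalarTower K R F]

/-- The order function of the place attached to a prime of a Dedekind model is the adic one. -/
theorem ord_ofHeightOneSpectrum (P : HeightOneSpectrum R) (f : F) :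
    (Place.ofHeightOneSpectrum (K := K) P).ord f = -(log (P.valuation F f)) := by
  obtain ⟨t, ht⟩ := P.valuation_exists_uniformizer F
  exact ord_eq_neg_log_of_valuationSubring_eq _ (P.valuation F) rfl ht f

theorem ofHeightOneSpectrum_injective :
    Function.Injective (Place.ofHeightOneSpectrum (K := K) (F := F) (R := R)) := by
  intro P Q h
  have h' : (P.valuation F).valuationSubring = (Q.valuation F).valuationSubring :=
    congrArg Place.toValuationSubring h
  exact HeightOneSpectrum.eq_of_valuation_isEquiv_valuation (K := F)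
    ((Valuation.isEquiv_iff_valuationSubring _ _).mpr h')

/-- Elements of `R` are integral at the places coming from `R`. -/
theorem algebraMap_mem_ofHeightOneSpectrum (P : HeightOneSpectrum R) (r : R) :
    algebraMap R F r ∈ (Place.ofHeightOneSpectrum (K := K) P).toValuationSubring := by
  rw [Place.ofHeightOneSpectrum_toValuationSubring, Valuation.mem_valuationSubring_iff]
  exact P.valuation_le_one r

theorem ord_algebraMap_nonneg (P : HeightOneSpectrum R) (r : R) :
    0 ≤ (Place.ofHeightOneSpectrum (K := K) P).ord (algebraMap R F r) := by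
  rw [ord_ofHeightOneSpectrum]
  rcases eq_or_ne r 0 with rfl | hr
  · simp
  have h1 : P.valuation F (algebraMap R F r) ≤ 1 := P.valuation_le_one r
  have h0 : P.valuation F (algebraMap R F r) ≠ 0 := by
    rw [Valuation.ne_zero_iff]
    exact (map_ne_zero_iff _ (IsFractionRing.injective R F)).mpr hr
  have : log (P.valuation F (algebraMap R F r)) ≤ log (1 : ℤᵐ⁰) :=
    (log_le_log h0 one_ne_zero).mpr h1
  rw [log_one] at this
  omega

theorem ord_algebraMap_pos_iff (P : HeightOneSpectrum R) (r : R) (hr : r ≠ 0) :
    0 < (Place.ofHeightOneSpectrum (K := K) P).ord (algebraMap R F r) ↔ r ∈ P.asIdeal := by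
  rw [ord_ofHeightOneSpectrum, ← HeightOneSpectrum.valuation_lt_one_iff_mem (K := F)]
  have h0 : P.valuation F (algebraMap R F r) ≠ 0 := by
    rw [Valuation.ne_zero_iff]
    exact (map_ne_zero_iff _ (IsFractionRing.injective R F)).mpr hr
  rw [← log_lt_log h0 one_ne_zero, log_one]
  omega

/-- The ring homomorphism `R → O_v` for a place `v` whose valuation ring contains `R`. -/
def toValuationSubringHom (v : Place K F)
    (hR : ∀ r : R, algebraMap R F r ∈ v.toValuationSubring) : R →+* v.toValuationSubring :=
  (algebraMap R F).codRestrict v.toValuationSubring.toSubring hR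

@[simp]
theorem coe_toValuationSubringHom (v : Place K F)
    (hR : ∀ r : R, algebraMap R F r ∈ v.toValuationSubring) (r : R) :
    (toValuationSubringHom v hR r : F) = algebraMap R F r := rfl

/-- The center on `R` of a place whose valuation ring contains `R`. -/
def center (v : Place K F) (hR : ∀ r : R, algebraMap R F r ∈ v.toValuationSubring) : Ideal R :=
  Ideal.comap (toValuationSubringHom v hR) (IsLocalRing.maximalIdeal v.toValuationSubring)

instance center_isPrime (v : Place K F)
    (hR : ∀ r : R, algebraMap R F r ∈ v.toValuationSubring) : (center v hR).IsPrime :=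
  Ideal.comap_isPrime _ _

theorem not_mem_center_iff (v : Place K F)
    (hR : ∀ r : R, algebraMap R F r ∈ v.toValuationSubring) (r : R) :
    r ∉ center v hR ↔ IsUnit (toValuationSubringHom v hR r) := by
  rw [center, Ideal.mem_comap, IsLocalRing.mem_maximalIdeal, mem_nonunits_iff, not_not]

theorem inv_mem_of_not_mem_center (v : Place K F)
    (hR : ∀ r : R, algebraMap R F r ∈ v.toValuationSubring) {r : R} (hr : r ∉ center v hR) :
    (algebraMap R F r)⁻¹ ∈ v.toValuationSubring := by
  obtain ⟨u, hu⟩ := (not_mem_center_iff v hR r).mp hr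
  have h1 : ((u : v.toValuationSubring) : F) = algebraMap R F r := by rw [hu]; rfl
  have h2 : ((u : v.toValuationSubring) : F) *
      (((u⁻¹ : v.toValuationSubringˣ) : v.toValuationSubring) : F) = 1 := by
    rw [← MulMemClass.coe_mul, Units.mul_inv, OneMemClass.coe_one]
  have h3 : (algebraMap R F r)⁻¹ = (((u⁻¹ : v.toValuationSubringˣ) : v.toValuationSubring) : F) := by
    rw [← h1]
    exact inv_eq_of_mul_eq_one_right h2
  rw [h3]
  exact ((u⁻¹ : v.toValuationSubringˣ) : v.toValuationSubring).2

theorem center_ne_bot (v : Place K F)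
    (hR : ∀ r : R, algebraMap R F r ∈ v.toValuationSubring) : center v hR ≠ ⊥ := by
  intro hbot
  apply v.ne_top'
  refine SetLike.ext fun f => ⟨fun _ => ValuationSubring.mem_top f, fun _ => ?_⟩
  obtain ⟨a, b, hb, rfl⟩ := IsFractionRing.div_surjective (A := R) f
  have hb0 : b ≠ 0 := nonZeroDivisors.ne_zero hb
  have hbc : b ∉ center v hR := by
    rw [hbot, Ideal.mem_bot]
    exact hb0
  rw [div_eq_mul_inv]
  exact v.toValuationSubring.mul_mem _ _ (hR a) (inv_mem_of_not_mem_center v hR hbc)

/-- The center of a place finite on `R`, as a height one prime. -/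
def centerSpec (v : Place K F) (hR : ∀ r : R, algebraMap R F r ∈ v.toValuationSubring) :
    HeightOneSpectrum R :=
  ⟨center v hR, center_isPrime v hR, center_ne_bot v hR⟩

theorem ofHeightOneSpectrum_centerSpec (v : Place K F)
    (hR : ∀ r : R, algebraMap R F r ∈ v.toValuationSubring) :
    Place.ofHeightOneSpectrum (K := K) (centerSpec v hR) = v := by
  apply Place.ext
  rw [Place.ofHeightOneSpectrum_toValuationSubring]
  have hK : Ring.KrullDimLE 1 ↥((centerSpec v hR).valuation F).valuationSubring := by
    rw [← HeightOneSpectrum.valuationSubringAtPrime_eq_valuationSubring]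
    infer_instance
  refine ValuationSubring.eq_of_le_of_ne_top _ ?_ v.ne_top'
  intro f hf
  rw [Valuation.mem_valuationSubring_iff] at hf
  obtain ⟨n, d, hnd⟩ := HeightOneSpectrum.exists_primeCompl_mul_eq_of_integer (centerSpec v hR) f hf
  have hd : (d : R) ∉ center v hR := d.2
  have hd0 : algebraMap R F (d : R) ≠ 0 := by
    intro h0
    apply hd
    have : (d : R) = 0 := (map_eq_zero_iff _ (IsFractionRing.injective R F)).mp h0
    rw [this]
    exact Ideal.zero_mem _
  have hfe : f = algebraMap R F n * (algebraMap R F (d : R))⁻¹ := by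
    rw [← hnd, mul_assoc, mul_inv_cancel₀ hd0, mul_one]
  rw [hfe]
  exact v.toValuationSubring.mul_mem _ _ (hR n) (inv_mem_of_not_mem_center v hR hd)

/-- The places of `F / K` coming from primes of `R` are exactly those finite on `R`. -/
theorem range_ofHeightOneSpectrum :
    Set.range (Place.ofHeightOneSpectrum (K := K) (F := F) (R := R)) =
      {v | ∀ r : R, algebraMap R F r ∈ v.toValuationSubring} := by
  ext v
  constructor
  · rintro ⟨P, rfl⟩ r
    exact algebraMap_mem_ofHeightOneSpectrum P r
  · intro hR
    exact ⟨centerSpec v hR, ofHeightOneSpectrum_centerSpec v hR⟩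

theorem centerSpec_ofHeightOneSpectrum (P : HeightOneSpectrum R) :
    centerSpec (Place.ofHeightOneSpectrum (K := K) P)
      (algebraMap_mem_ofHeightOneSpectrum (K := K) (F := F) P) = P :=
  ofHeightOneSpectrum_injective (K := K) (F := F) (ofHeightOneSpectrum_centerSpec _ _)

theorem center_ofHeightOneSpectrum (P : HeightOneSpectrum R) :
    center (Place.ofHeightOneSpectrum (K := K) P)
      (algebraMap_mem_ofHeightOneSpectrum (K := K) (F := F) P) = P.asIdeal :=
  congrArg HeightOneSpectrum.asIdeal (centerSpec_ofHeightOneSpectrum (K := K) (F := F) P)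

/-- The residue map `R → κ(v)` as a `K`-algebra map, for a place finite on `R`. -/
noncomputable def residueAlgHom (v : Place K F) (hR : ∀ r : R, algebraMap R F r ∈ v.toValuationSubring) :
    R →ₐ[K] v.ResidueField where
  toRingHom := (IsLocalRing.residue v.toValuationSubring).comp (toValuationSubringHom v hR)
  commutes' a := by
    have h : toValuationSubringHom v hR (algebraMap K R a) =
        algebraMap K v.toValuationSubring a := by
      apply Subtype.ext
      rw [coe_toValuationSubringHom, Place.coe_algebraMap, ← IsScalarTower.algebraMap_apply]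
    show IsLocalRing.residue _ (toValuationSubringHom v hR (algebraMap K R a)) = _
    rw [h]
    rfl

theorem residueAlgHom_apply (v : Place K F)
    (hR : ∀ r : R, algebraMap R F r ∈ v.toValuationSubring) (r : R) :
    residueAlgHom v hR r = IsLocalRing.residue _ (toValuationSubringHom v hR r) := rfl

theorem ker_residueAlgHom (v : Place K F)
    (hR : ∀ r : R, algebraMap R F r ∈ v.toValuationSubring) :
    RingHom.ker (residueAlgHom v hR) = center v hR := by
  ext r
  rw [RingHom.mem_ker, residueAlgHom_apply, IsLocalRing.residue_eq_zero_iff]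
  rfl

theorem residueAlgHom_surjective (v : Place K F)
    (hR : ∀ r : R, algebraMap R F r ∈ v.toValuationSubring) :
    Function.Surjective (residueAlgHom v hR) := by
  intro y
  obtain ⟨⟨f, hf⟩, rfl⟩ := IsLocalRing.residue_surjective y
  have hf' : (centerSpec v hR).valuation F f ≤ 1 := by
    have := hf
    rw [← ofHeightOneSpectrum_centerSpec v hR, Place.ofHeightOneSpectrum_toValuationSubring,
      Valuation.mem_valuationSubring_iff] at this
    exact this
  obtain ⟨n, d, hnd⟩ :=
    HeightOneSpectrum.exists_primeCompl_mul_eq_of_integer (centerSpec v hR) f hf'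
  have hd : (d : R) ∉ center v hR := d.2
  have hmax : (center v hR).IsMaximal := (centerSpec v hR).isMaximal
  obtain ⟨d', i, hi, hdi⟩ := hmax.exists_inv hd
  refine ⟨n * d', ?_⟩
  rw [residueAlgHom_apply]
  symm
  rw [← sub_eq_zero, ← map_sub, IsLocalRing.residue_eq_zero_iff]
  have hi' : toValuationSubringHom v hR i ∈ IsLocalRing.maximalIdeal v.toValuationSubring := hi
  have key : (⟨f, hf⟩ : v.toValuationSubring) - toValuationSubringHom v hR (n * d') =
      ⟨f, hf⟩ * toValuationSubringHom v hR i := by
    apply Subtype.ext
    push_cast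
    rw [coe_toValuationSubringHom, coe_toValuationSubringHom, map_mul, ← hnd]
    have hi2 : algebraMap R F i = 1 - algebraMap R F d' * algebraMap R F (d : R) := by
      rw [← map_mul, ← map_one (algebraMap R F), ← map_sub, ← hdi]
      congr 1
      ring
    rw [hi2]
    ring
  rw [key]
  exact Ideal.mul_mem_left _ _ hi'

/-- The residue field of a place finite on `R` is `R` modulo the center. -/
noncomputable def quotientCenterEquiv (v : Place K F)
    (hR : ∀ r : R, algebraMap R F r ∈ v.toValuationSubring) :
    (R ⧸ RingHom.ker (residueAlgHom v hR)) ≃ₐ[K] v.ResidueField :=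
  Ideal.quotientKerAlgEquivOfSurjective (residueAlgHom_surjective v hR)

theorem deg_eq_finrank_quotient_ker (v : Place K F)
    (hR : ∀ r : R, algebraMap R F r ∈ v.toValuationSubring) :
    v.deg = Module.finrank K (R ⧸ RingHom.ker (residueAlgHom v hR)) :=
  (quotientCenterEquiv v hR).toLinearEquiv.finrank_eq.symm

theorem deg_eq_finrank_quotient_center (v : Place K F)
    (hR : ∀ r : R, algebraMap R F r ∈ v.toValuationSubring) :
    v.deg = Module.finrank K (R ⧸ center v hR) := by
  rw [deg_eq_finrank_quotient_ker v hR, ker_residueAlgHom]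

/-- The degree of the place attached to a prime `P` of a Dedekind model is `[R ⧸ P : K]`. -/
theorem deg_ofHeightOneSpectrum (P : HeightOneSpectrum R) :
    (Place.ofHeightOneSpectrum (K := K) (F := F) P).deg = Module.finrank K (R ⧸ P.asIdeal) := by
  rw [deg_eq_finrank_quotient_center _ (algebraMap_mem_ofHeightOneSpectrum (K := K) (F := F) P),
    center_ofHeightOneSpectrum (K := K) (F := F) P]

/-- The order of an element of `R` at the place attached to `P` is the multiplicity of `P` in
the factorisation of the principal ideal. -/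
theorem ord_algebraMap_eq_count (P : HeightOneSpectrum R) {r : R} (hr : r ≠ 0) :
    (Place.ofHeightOneSpectrum (K := K) (F := F) P).ord (algebraMap R F r) =
      (Multiset.count P.asIdeal
        (UniqueFactorizationMonoid.normalizedFactors (Ideal.span {r} : Ideal R)) : ℤ) := by
  have hsr : (Ideal.span {r} : Ideal R) ≠ 0 := Submodule.span_singleton_eq_bot.mp.mt hr
  rw [ord_ofHeightOneSpectrum, HeightOneSpectrum.valuation_of_algebraMap,
    HeightOneSpectrum.intValuation_if_neg _ hr, log_exp, neg_neg,
    Ideal.count_associates_factors_eq hsr P.isPrime P.ne_bot]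

end Dedekind

end Fermat.Agent.ProgramR.FF
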