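import Mathlib
import Fermat.Agent.ProgramR.FunctionField.PlaceDedekind

/-!
# The fundamental identity for a function field (Program R, package R1)

`F / K` a field extension in characteristic zero, `x : F` transcendental over `K` with
`F` finite over `K(x)`.  The places `v` of `F / K` with `0 < ord_v x` are finite in number and
`∑ ord_v x * deg v = [F : K(x)]`.
-/

set_option autoImplicit false
set_option linter.unusedSectionVars false
set_option linter.style.haveILetI false

namespace Fermat.Agent.ProgramR.FF

open AlgebraicCurve IsDedekindDomain WithZero IntermediateField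
open IntermediateField.algebraAdjoinAdjoin

variable {K F : Type*} [Field K] [Field F] [Algebra K F]

section PolynomialRing

variable (x : F)

theorem isPrincipalIdealRing_adjoin (hx : Transcendental K x) :
    IsPrincipalIdealRing (Algebra.adjoin K {x}) :=
  IsPrincipalIdealRing.of_surjective
    (Polynomial.algEquivOfTranscendental K x hx : Polynomial K →+* Algebra.adjoin K {x})
    (Polynomial.algEquivOfTranscendental K x hx).surjective

variable (K) in
/-- The generator `x` of `K[x]`. -/
def genA : Algebra.adjoin K {x} := ⟨x, Algebra.self_mem_adjoin_singleton K x⟩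

variable (K) in
/-- The ideal `(x)` of `K[x]`. -/
def idealGen : Ideal (Algebra.adjoin K {x}) := Ideal.span {genA K x}

theorem algEquivOfTranscendental_X (hx : Transcendental K x) :
    Polynomial.algEquivOfTranscendental K x hx Polynomial.X = genA K x := by
  apply Subtype.ext
  simp [genA, Polynomial.algEquivOfTranscendental]

theorem genA_ne_zero (hx : Transcendental K x) : genA K x ≠ 0 := by
  intro h
  have h1 : Polynomial.algEquivOfTranscendental K x hx Polynomial.X = 0 := by
    rw [algEquivOfTranscendental_X, h]
  rw [map_eq_zero_iff _ (Polynomial.algEquivOfTranscendental K x hx).injective] at h1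
  exact Polynomial.X_ne_zero h1

theorem idealGen_ne_bot (hx : Transcendental K x) : idealGen K x ≠ ⊥ := by
  rw [idealGen, ne_eq, Ideal.span_singleton_eq_bot]
  exact genA_ne_zero x hx

theorem not_isUnit_genA (hx : Transcendental K x) : ¬ IsUnit (genA K x) := by
  intro h
  have h1 : IsUnit ((Polynomial.algEquivOfTranscendental K x hx).symm (genA K x)) :=
    h.map (Polynomial.algEquivOfTranscendental K x hx).symm
  rw [← algEquivOfTranscendental_X x hx, AlgEquiv.symm_apply_apply] at h1
  exact Polynomial.not_isUnit_X h1

theorem idealGen_ne_top (hx : Transcendental K x) : idealGen K x ≠ ⊤ := by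
  rw [idealGen, ne_eq, Ideal.span_singleton_eq_top]
  exact not_isUnit_genA x hx

theorem algebraMap_quotient_idealGen_surjective (hx : Transcendental K x) :
    Function.Surjective (algebraMap K (Algebra.adjoin K {x} ⧸ idealGen K x)) := by
  intro y
  obtain ⟨a, rfl⟩ := Ideal.Quotient.mk_surjective y
  obtain ⟨q, rfl⟩ := (Polynomial.algEquivOfTranscendental K x hx).surjective a
  refine ⟨q.coeff 0, ?_⟩
  rw [IsScalarTower.algebraMap_apply K (Algebra.adjoin K {x}) (Algebra.adjoin K {x} ⧸ idealGen K x),
    Ideal.Quotient.algebraMap_eq]
  symm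
  rw [Ideal.Quotient.mk_eq_mk_iff_sub_mem, idealGen, Ideal.mem_span_singleton']
  refine ⟨Polynomial.algEquivOfTranscendental K x hx q.divX, ?_⟩
  rw [← algEquivOfTranscendental_X x hx, ← map_mul,
    ← (Polynomial.algEquivOfTranscendental K x hx).commutes, ← map_sub]
  congr 1
  rw [eq_sub_iff_add_eq, Polynomial.algebraMap_eq]
  exact Polynomial.divX_mul_X_add q

theorem algebraMap_quotient_idealGen_bijective (hx : Transcendental K x) :
    Function.Bijective (algebraMap K (Algebra.adjoin K {x} ⧸ idealGen K x)) := by
  refine ⟨?_, algebraMap_quotient_idealGen_surjective x hx⟩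
  have : Nontrivial (Algebra.adjoin K {x} ⧸ idealGen K x) :=
    Ideal.Quotient.nontrivial_iff.mpr (idealGen_ne_top x hx)
  exact (algebraMap K (Algebra.adjoin K {x} ⧸ idealGen K x)).injective

theorem idealGen_isMaximal (hx : Transcendental K x) : (idealGen K x).IsMaximal := by
  apply Ideal.Quotient.maximal_of_isField
  exact MulEquiv.isField (Field.toIsField K)
    (RingEquiv.ofBijective _ (algebraMap_quotient_idealGen_bijective x hx)).symm.toMulEquiv

end PolynomialRing

section IntegralClosure

variable (x : F) [CharZero K] [FiniteDimensional K⟮x⟯ F]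

theorem isDedekindDomain_intClosure (hx : Transcendental K x) :
    IsDedekindDomain (integralClosure (Algebra.adjoin K {x}) F) := by
  haveI := isPrincipalIdealRing_adjoin x hx
  exact integralClosure.isDedekindDomain (Algebra.adjoin K {x}) K⟮x⟯ F

theorem isFractionRing_intClosure :
    IsFractionRing (integralClosure (Algebra.adjoin K {x}) F) F :=
  integralClosure.isFractionRing_of_finite_extension K⟮x⟯ F

theorem finite_intClosure (hx : Transcendental K x) :
    Module.Finite (Algebra.adjoin K {x}) (integralClosure (Algebra.adjoin K {x}) F) := by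
  haveI := isPrincipalIdealRing_adjoin x hx
  exact IsIntegralClosure.finite (Algebra.adjoin K {x}) K⟮x⟯ F
    (integralClosure (Algebra.adjoin K {x}) F)

theorem free_intClosure (hx : Transcendental K x) :
    Module.Free (Algebra.adjoin K {x}) (integralClosure (Algebra.adjoin K {x}) F) := by
  haveI := isPrincipalIdealRing_adjoin x hx
  haveI := finite_intClosure x hx
  infer_instance

theorem finrank_intClosure :
    Module.finrank (Algebra.adjoin K {x}) (integralClosure (Algebra.adjoin K {x}) F) =
      Module.finrank K⟮x⟯ F := by
  haveI := isFractionRing_intClosure (K := K) x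
  exact (IsFractionRing.finrank_eq (Algebra.adjoin K {x}) K⟮x⟯
    (integralClosure (Algebra.adjoin K {x}) F) F).symm

end IntegralClosure

section ValuationRing

variable (x : F)

/-- If `x` lies in the valuation ring of a place, so does `K[x]`. -/
theorem adjoin_le_of_mem (v : Place K F) (hxv : x ∈ v.toValuationSubring)
    (a : Algebra.adjoin K {x}) : (a : F) ∈ v.toValuationSubring := by
  have key : ∀ f : F, f ∈ Algebra.adjoin K {x} → f ∈ v.toValuationSubring := by
    intro f hf
    induction hf using Algebra.adjoin_induction with
    | mem y hy =>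
      rw [Set.mem_singleton_iff] at hy
      rw [hy]
      exact hxv
    | algebraMap r => exact v.algebraMap_mem' r
    | add y z _ _ hy hz => exact v.toValuationSubring.add_mem _ _ hy hz
    | mul y z _ _ hy hz => exact v.toValuationSubring.mul_mem _ _ hy hz
  exact key a a.2

/-- If `x` lies in the valuation ring of a place, so does the integral closure of `K[x]`. -/
theorem intClosure_le_of_mem (v : Place K F) (hxv : x ∈ v.toValuationSubring)
    (b : integralClosure (Algebra.adjoin K {x}) F) :
    algebraMap (integralClosure (Algebra.adjoin K {x}) F) F b ∈ v.toValuationSubring := by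
  obtain ⟨b, hb⟩ := b
  show b ∈ v.toValuationSubring
  obtain ⟨q, hmonic, hq⟩ := hb
  let φ : Algebra.adjoin K {x} →+* v.toValuationSubring :=
    (algebraMap (Algebra.adjoin K {x}) F).codRestrict v.toValuationSubring.toSubring
      (adjoin_le_of_mem x v hxv)
  have hint : IsIntegral v.toValuationSubring b := by
    refine ⟨q.map φ, hmonic.map φ, ?_⟩
    rw [Polynomial.eval₂_map]
    exact hq
  obtain ⟨y, hy⟩ := (IsIntegrallyClosed.isIntegral_iff (R := v.toValuationSubring) (K := F)).mp hint
  rw [← hy]
  exact y.2

end ValuationRing

section Main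

variable (x : F) [CharZero K] [FiniteDimensional K⟮x⟯ F]

variable (K) in
/-- The element `x`, viewed in the integral closure of `K[x]`. -/
def genB : integralClosure (Algebra.adjoin K {x}) F :=
  algebraMap (Algebra.adjoin K {x}) (integralClosure (Algebra.adjoin K {x}) F) (genA K x)

theorem algebraMap_genB :
    algebraMap (integralClosure (Algebra.adjoin K {x}) F) F (genB K x) = x := rfl

theorem genB_ne_zero (hx : Transcendental K x) : genB K x ≠ 0 := by
  intro h
  have := congrArg (algebraMap (integralClosure (Algebra.adjoin K {x}) F) F) h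
  rw [algebraMap_genB, map_zero] at this
  apply hx
  rw [this]
  exact isAlgebraic_zero

theorem map_idealGen :
    Ideal.map (algebraMap (Algebra.adjoin K {x}) (integralClosure (Algebra.adjoin K {x}) F))
      (idealGen K x) = Ideal.span {genB K x} := by
  rw [idealGen, Ideal.map_span, Set.image_singleton]
  rfl

omit [CharZero K] [FiniteDimensional K⟮x⟯ F] in
theorem faithfulSMul_intClosure :
    FaithfulSMul (Algebra.adjoin K {x}) (integralClosure (Algebra.adjoin K {x}) F) := by
  rw [faithfulSMul_iff_algebraMap_injective]
  intro a a' h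
  have := congrArg (algebraMap (integralClosure (Algebra.adjoin K {x}) F) F) h
  exact Subtype.ext this

/-- The place of `F / K` attached to a prime of the integral closure lying over `(x)`. -/
noncomputable def placeOfPrimeOver (hx : Transcendental K x)
    (Q : (idealGen K x).primesOver (integralClosure (Algebra.adjoin K {x}) F)) : Place K F :=
  haveI := isDedekindDomain_intClosure x hx
  haveI := isFractionRing_intClosure (K := K) x
  Place.ofHeightOneSpectrum (K := K)
    ⟨Q.1, Q.2.1, by
      haveI := Q.2.2
      haveI := faithfulSMul_intClosure (K := K) x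
      exact Ideal.ne_bot_of_liesOver_of_ne_bot (idealGen_ne_bot x hx) Q.1⟩

theorem placeOfPrimeOver_eq (hx : Transcendental K x)
    (Q : (idealGen K x).primesOver (integralClosure (Algebra.adjoin K {x}) F))
    [IsDedekindDomain (integralClosure (Algebra.adjoin K {x}) F)]
    [IsFractionRing (integralClosure (Algebra.adjoin K {x}) F) F] (h : Q.1 ≠ ⊥) :
    placeOfPrimeOver x hx Q = Place.ofHeightOneSpectrum (K := K) ⟨Q.1, Q.2.1, h⟩ := rfl

theorem ne_bot_of_mem_primesOver (hx : Transcendental K x)
    (Q : (idealGen K x).primesOver (integralClosure (Algebra.adjoin K {x}) F)) : Q.1 ≠ ⊥ := by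
  haveI := Q.2.2
  haveI := faithfulSMul_intClosure (K := K) x
  exact Ideal.ne_bot_of_liesOver_of_ne_bot (idealGen_ne_bot x hx) Q.1

theorem placeOfPrimeOver_injective (hx : Transcendental K x) :
    Function.Injective (placeOfPrimeOver x hx) := by
  haveI := isDedekindDomain_intClosure x hx
  haveI := isFractionRing_intClosure (K := K) x
  intro Q Q' h
  have h' := ofHeightOneSpectrum_injective (K := K) (F := F) h
  apply Subtype.ext
  exact congrArg HeightOneSpectrum.asIdeal h'

theorem ord_placeOfPrimeOver (hx : Transcendental K x)
    (Q : (idealGen K x).primesOver (integralClosure (Algebra.adjoin K {x}) F)) :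
    (placeOfPrimeOver x hx Q).ord x = (Q.1.ramificationIdx (Algebra.adjoin K {x}) : ℤ) := by
  haveI := isDedekindDomain_intClosure x hx
  haveI := isFractionRing_intClosure (K := K) x
  haveI := Q.2.2
  have hne : Ideal.map (algebraMap (Algebra.adjoin K {x})
      (integralClosure (Algebra.adjoin K {x}) F)) (idealGen K x) ≠ ⊥ := by
    rw [map_idealGen, ne_eq, Ideal.span_singleton_eq_bot]
    exact genB_ne_zero x hx
  rw [Ideal.IsDedekindDomain.ramificationIdx_eq_normalizedFactors_count (idealGen K x) Q.1 hne,
    map_idealGen, placeOfPrimeOver_eq x hx Q (ne_bot_of_mem_primesOver x hx Q)]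
  have h := ord_algebraMap_eq_count (K := K) (F := F)
    (⟨Q.1, Q.2.1, ne_bot_of_mem_primesOver x hx Q⟩ :
      HeightOneSpectrum (integralClosure (Algebra.adjoin K {x}) F)) (genB_ne_zero x hx)
  rw [algebraMap_genB] at h
  exact h

theorem deg_placeOfPrimeOver (hx : Transcendental K x)
    (Q : (idealGen K x).primesOver (integralClosure (Algebra.adjoin K {x}) F)) :
    (placeOfPrimeOver x hx Q).deg = Q.1.inertiaDeg (Algebra.adjoin K {x}) := by
  haveI := isDedekindDomain_intClosure x hx
  haveI := isFractionRing_intClosure (K := K) x
  haveI := Q.2.2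
  haveI := Q.2.1
  haveI := idealGen_isMaximal x hx
  haveI : Q.1.IsMaximal := Q.2.1.isMaximal (ne_bot_of_mem_primesOver x hx Q)
  rw [placeOfPrimeOver_eq x hx Q (ne_bot_of_mem_primesOver x hx Q), deg_ofHeightOneSpectrum,
    Ideal.inertiaDeg_eq_of_isMaximal (idealGen K x) Q.1]
  refine Algebra.finrank_eq_of_equiv_equiv
    (RingEquiv.ofBijective _ (algebraMap_quotient_idealGen_bijective x hx)) (RingEquiv.refl _) ?_
  ext a
  simp only [RingHom.coe_comp, Function.comp_apply, RingEquiv.toRingHom_eq_coe,
    RingEquiv.coe_ringHom_refl, RingHom.id_apply, RingEquiv.coe_toRingHom,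
    RingEquiv.ofBijective_apply]
  rw [← IsScalarTower.algebraMap_apply]

theorem genB_mem_of_mem_primesOver
    (Q : (idealGen K x).primesOver (integralClosure (Algebra.adjoin K {x}) F)) :
    genB K x ∈ Q.1 := by
  haveI := Q.2.2
  have h : genA K x ∈ idealGen K x := Ideal.mem_span_singleton_self _
  exact (Ideal.mem_of_liesOver Q.1 (idealGen K x) (genA K x)).mp h

theorem range_placeOfPrimeOver (hx : Transcendental K x) :
    Set.range (placeOfPrimeOver x hx) = {v : Place K F | 0 < v.ord x} := by
  haveI := isDedekindDomain_intClosure x hx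
  haveI := isFractionRing_intClosure (K := K) x
  ext v
  constructor
  · rintro ⟨Q, rfl⟩
    show 0 < (placeOfPrimeOver x hx Q).ord x
    rw [placeOfPrimeOver_eq x hx Q (ne_bot_of_mem_primesOver x hx Q)]
    have h := (ord_algebraMap_pos_iff (K := K) (F := F)
      (⟨Q.1, Q.2.1, ne_bot_of_mem_primesOver x hx Q⟩ :
        HeightOneSpectrum (integralClosure (Algebra.adjoin K {x}) F)) (genB K x)
      (genB_ne_zero x hx)).mpr (genB_mem_of_mem_primesOver x Q)
    rw [algebraMap_genB] at h
    exact h
  · intro hv
    have hv' : 0 < v.ord x := hv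
    have hxv : x ∈ v.toValuationSubring := mem_of_ord_nonneg v hv'.le
    have hR := intClosure_le_of_mem x v hxv
    have hP : Place.ofHeightOneSpectrum (K := K) (centerSpec v hR) = v :=
      ofHeightOneSpectrum_centerSpec v hR
    have hgen : genB K x ∈ (centerSpec v hR).asIdeal := by
      rw [← ord_algebraMap_pos_iff (K := K) (F := F) (centerSpec v hR) (genB K x)
        (genB_ne_zero x hx), hP, algebraMap_genB]
      exact hv'
    have hover : (centerSpec v hR).asIdeal.LiesOver (idealGen K x) := by
      refine ⟨(idealGen_isMaximal x hx).eq_of_le ?_ ?_⟩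
      · exact Ideal.IsPrime.ne_top inferInstance
      · rw [idealGen, Ideal.span_le, Set.singleton_subset_iff]
        exact hgen
    refine ⟨⟨(centerSpec v hR).asIdeal, (centerSpec v hR).isPrime, hover⟩, ?_⟩
    rw [placeOfPrimeOver_eq x hx _ (centerSpec v hR).ne_bot]
    exact hP

theorem finite_zeros (hx : Transcendental K x) : {v : Place K F | 0 < v.ord x}.Finite := by
  haveI := isDedekindDomain_intClosure x hx
  haveI := idealGen_isMaximal x hx
  rw [← range_placeOfPrimeOver x hx]
  exact Set.finite_range _

/-- **Fundamental identity, zeros.**  `∑_{v : ord_v x > 0} ord_v x * deg v = [F : K(x)]`. -/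
theorem sum_zeros (hx : Transcendental K x) :
    ∑ v ∈ (finite_zeros x hx).toFinset, v.ord x * (v.deg : ℤ) = (Module.finrank K⟮x⟯ F : ℤ) := by
  classical
  haveI := isDedekindDomain_intClosure x hx
  haveI := idealGen_isMaximal x hx
  haveI := finite_intClosure x hx
  haveI := free_intClosure x hx
  have key := Ideal.sum_ramification_inertia_eq_finrank (idealGen K x)
    (integralClosure (Algebra.adjoin K {x}) F)
  rw [finrank_intClosure] at key
  have hfin : (finite_zeros x hx).toFinset = Finset.univ.image (placeOfPrimeOver x hx) := by
    ext v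
    rw [Set.Finite.mem_toFinset, ← range_placeOfPrimeOver x hx]
    simp
  rw [hfin, Finset.sum_image (fun Q _ Q' _ h => placeOfPrimeOver_injective x hx h), ← key]
  push_cast
  refine Finset.sum_congr rfl fun Q _ => ?_
  rw [ord_placeOfPrimeOver, deg_placeOfPrimeOver]

end Main

end Fermat.Agent.ProgramR.FF
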