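import Mathlib
import Fermat.Agent.ProgramR.FunctionField.Fibre

/-!
# Divisors of functions on a function field (Program R, package R1)

Consequences of the fundamental identity: poles, fibres over `a : K`, the divisor of a
transcendental element has degree zero.
-/

set_option autoImplicit false
set_option linter.unusedSectionVars false
set_option linter.style.haveILetI false

namespace Fermat.Agent.ProgramR.FF

open AlgebraicCurve IsDedekindDomain WithZero IntermediateField

variable {K F : Type*} [Field K] [Field F] [Algebra K F] [CharZero K]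

section ChangeOfGenerator

variable (x : F) [FiniteDimensional K⟮x⟯ F]

/-- Zeros of another generator `y` of the rational subfield `K(x)`. -/
theorem finite_zeros_of_adjoin_eq {y : F} (hy : Transcendental K y) (h : K⟮y⟯ = K⟮x⟯) :
    {v : Place K F | 0 < v.ord y}.Finite := by
  haveI : FiniteDimensional K⟮y⟯ F := by rw [h]; infer_instance
  exact finite_zeros y hy

theorem sum_zeros_of_adjoin_eq {y : F} (hy : Transcendental K y) (h : K⟮y⟯ = K⟮x⟯)
    (S : Finset (Place K F)) (hS : ∀ v, v ∈ S ↔ 0 < v.ord y) :
    ∑ v ∈ S, v.ord y * (v.deg : ℤ) = (Module.finrank K⟮x⟯ F : ℤ) := by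
  haveI : FiniteDimensional K⟮y⟯ F := by rw [h]; infer_instance
  have hS' : S = (finite_zeros y hy).toFinset := by
    ext v
    rw [hS, Set.Finite.mem_toFinset]
    rfl
  rw [hS', sum_zeros y hy, h]

end ChangeOfGenerator

section Poles

variable (x : F) [FiniteDimensional K⟮x⟯ F]

omit [CharZero K] in
theorem transcendental_inv {x : F} (hx : Transcendental K x) : Transcendental K x⁻¹ :=
  fun h => hx (by simpa using h.inv)

omit [CharZero K] [FiniteDimensional K⟮x⟯ F] in
theorem adjoin_inv_eq : K⟮x⁻¹⟯ = K⟮x⟯ := by
  apply le_antisymm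
  · rw [adjoin_simple_le_iff]
    exact inv_mem (mem_adjoin_simple_self K x)
  · rw [adjoin_simple_le_iff]
    have := inv_mem (mem_adjoin_simple_self K x⁻¹)
    rwa [inv_inv] at this

theorem finite_poles (hx : Transcendental K x) : {v : Place K F | v.ord x < 0}.Finite := by
  have h := finite_zeros_of_adjoin_eq x (transcendental_inv hx) (adjoin_inv_eq (K := K) x)
  refine h.subset ?_
  intro v hv
  show 0 < v.ord x⁻¹
  rw [v.ord_inv]
  have : v.ord x < 0 := hv
  omega

/-- **Fundamental identity, poles.** -/
theorem sum_poles (hx : Transcendental K x) (S : Finset (Place K F))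
    (hS : ∀ v, v ∈ S ↔ v.ord x < 0) :
    ∑ v ∈ S, (-v.ord x) * (v.deg : ℤ) = (Module.finrank K⟮x⟯ F : ℤ) := by
  have h := sum_zeros_of_adjoin_eq x (transcendental_inv hx) (adjoin_inv_eq (K := K) x) S
    (fun v => by rw [hS, v.ord_inv]; omega)
  rw [← h]
  refine Finset.sum_congr rfl fun v _ => ?_
  rw [v.ord_inv]

/-- **Fundamental identity, zeros**, for an arbitrary finset description of the zero set. -/
theorem sum_zeros' (hx : Transcendental K x) (S : Finset (Place K F))
    (hS : ∀ v, v ∈ S ↔ 0 < v.ord x) :
    ∑ v ∈ S, v.ord x * (v.deg : ℤ) = (Module.finrank K⟮x⟯ F : ℤ) :=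
  sum_zeros_of_adjoin_eq x hx rfl S hS

end Poles

section Fibre

variable (x : F) [FiniteDimensional K⟮x⟯ F]

omit [CharZero K] in
theorem transcendental_sub_algebraMap {x : F} (hx : Transcendental K x) (a : K) :
    Transcendental K (x - algebraMap K F a) := by
  intro h
  apply hx
  have := h.add (isAlgebraic_algebraMap (R := K) (A := F) a)
  rwa [sub_add_cancel] at this

omit [CharZero K] [FiniteDimensional K⟮x⟯ F] in
theorem adjoin_sub_algebraMap_eq (a : K) : K⟮x - algebraMap K F a⟯ = K⟮x⟯ := by
  apply le_antisymm
  · rw [adjoin_simple_le_iff]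
    exact sub_mem (mem_adjoin_simple_self K x) (IntermediateField.algebraMap_mem _ a)
  · rw [adjoin_simple_le_iff]
    have := add_mem (mem_adjoin_simple_self K (x - algebraMap K F a))
      (IntermediateField.algebraMap_mem K⟮x - algebraMap K F a⟯ a)
    rwa [sub_add_cancel] at this

theorem finite_fibre (hx : Transcendental K x) (a : K) :
    {v : Place K F | 0 < v.ord (x - algebraMap K F a)}.Finite :=
  finite_zeros_of_adjoin_eq x (transcendental_sub_algebraMap hx a)
    (adjoin_sub_algebraMap_eq (K := K) x a)

/-- **Fundamental identity, fibre over `a : K`.** -/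
theorem sum_fibre (hx : Transcendental K x) (a : K) (S : Finset (Place K F))
    (hS : ∀ v, v ∈ S ↔ 0 < v.ord (x - algebraMap K F a)) :
    ∑ v ∈ S, v.ord (x - algebraMap K F a) * (v.deg : ℤ) = (Module.finrank K⟮x⟯ F : ℤ) :=
  sum_zeros_of_adjoin_eq x (transcendental_sub_algebraMap hx a)
    (adjoin_sub_algebraMap_eq (K := K) x a) S hS

end Fibre

section DivisorOf

variable (x : F) [FiniteDimensional K⟮x⟯ F]

theorem finite_support_ord (hx : Transcendental K x) : {v : Place K F | v.ord x ≠ 0}.Finite := by
  refine ((finite_zeros x hx).union (finite_poles x hx)).subset ?_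
  intro v hv
  have hv' : v.ord x ≠ 0 := hv
  rcases lt_or_gt_of_ne hv' with h | h
  · exact Or.inr h
  · exact Or.inl h

/-- The divisor of a transcendental element. -/
noncomputable def divisorOfTranscendental (hx : Transcendental K x) : Divisor K F :=
  Finsupp.ofSupportFinite (fun v => v.ord x) (finite_support_ord x hx)

@[simp]
theorem divisorOfTranscendental_apply (hx : Transcendental K x) (v : Place K F) :
    divisorOfTranscendental x hx v = v.ord x := rfl

omit [CharZero K] in
theorem degree_eq_sum (D : Divisor K F) :
    Divisor.degree D = ∑ v ∈ D.support, D v * (v.deg : ℤ) := by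
  rw [Divisor.degree, Finsupp.liftAddHom_apply, Finsupp.sum]
  rfl

/-- The divisor of a transcendental element has degree zero. -/
theorem degree_divisorOfTranscendental (hx : Transcendental K x) :
    Divisor.degree (divisorOfTranscendental x hx) = 0 := by
  classical
  rw [degree_eq_sum]
  set D := divisorOfTranscendental x hx with hD
  rw [← Finset.sum_filter_add_sum_filter_not D.support (fun v => 0 < v.ord x)]
  have h1 : ∑ v ∈ D.support.filter (fun v => 0 < v.ord x), D v * (v.deg : ℤ) =
      (Module.finrank K⟮x⟯ F : ℤ) := by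
    refine sum_zeros' x hx _ ?_
    intro v
    rw [Finset.mem_filter, Finsupp.mem_support_iff, hD, divisorOfTranscendental_apply]
    constructor
    · exact fun h => h.2
    · exact fun h => ⟨ne_of_gt h, h⟩
  have h2 : ∑ v ∈ D.support.filter (fun v => ¬ 0 < v.ord x), (-v.ord x) * (v.deg : ℤ) =
      (Module.finrank K⟮x⟯ F : ℤ) := by
    refine sum_poles x hx _ ?_
    intro v
    rw [Finset.mem_filter, Finsupp.mem_support_iff, hD, divisorOfTranscendental_apply]
    constructor
    · rintro ⟨h, h'⟩
      omega
    · intro h
      exact ⟨ne_of_lt h, by omega⟩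
  have h3 : ∑ v ∈ D.support.filter (fun v => ¬ 0 < v.ord x), D v * (v.deg : ℤ) =
      -(Module.finrank K⟮x⟯ F : ℤ) := by
    rw [← h2, ← Finset.sum_neg_distrib]
    refine Finset.sum_congr rfl fun v _ => ?_
    rw [hD, divisorOfTranscendental_apply]
    ring
  rw [h1, h3]
  ring

end DivisorOf

section Exchange

omit [CharZero K] in
theorem essFiniteType_of_finite_adjoin (x : F) [FiniteDimensional K⟮x⟯ F] :
    Algebra.EssFiniteType K F := by
  haveI : Algebra.EssFiniteType K K⟮x⟯ := by
    rw [IntermediateField.essFiniteType_iff]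
    exact ⟨{x}, by simp⟩
  exact Algebra.EssFiniteType.comp K K⟮x⟯ F

omit [CharZero K] in
theorem isAlgebraic_adjoin_of_transcendental (x : F) [FiniteDimensional K⟮x⟯ F]
    {f : F} (hf : Transcendental K f) : Algebra.IsAlgebraic K⟮f⟯ F := by
  have h1 : Algebra.IsAlgebraic (Algebra.adjoin K ({x} : Set F)) F := by
    open IntermediateField.algebraAdjoinAdjoin in
    exact Algebra.IsAlgebraic.trans (Algebra.adjoin K ({x} : Set F)) K⟮x⟯ F
  have h2 : Algebra.trdeg K F ≤ 1 := by
    have := Algebra.IsAlgebraic.trdeg_le_cardinalMk K ({x} : Set F)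
    simpa using this
  have h3 : AlgebraicIndependent K (fun _ : Unit => f) :=
    (algebraicIndependent_unique_type_iff).mpr hf
  have h4 : IsTranscendenceBasis K (fun _ : Unit => f) :=
    h3.isTranscendenceBasis_of_lift_trdeg_le_of_finite (by
      rw [Cardinal.mk_fintype, Fintype.card_unit, Nat.cast_one, Cardinal.lift_one,
        Cardinal.lift_id']
      exact h2)
  have h5 := h4.isAlgebraic_field
  have h6 : Set.range (fun _ : Unit => f) = {f} := by
    ext y; simp [eq_comm]
  rwa [h6] at h5

omit [CharZero K] in
/-- Exchange: a function field in one variable is finite over `K(f)` for every transcendental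
element `f`. -/
theorem finiteDimensional_adjoin_of_transcendental (x : F) [FiniteDimensional K⟮x⟯ F]
    {f : F} (hf : Transcendental K f) : FiniteDimensional K⟮f⟯ F := by
  haveI := essFiniteType_of_finite_adjoin (K := K) x
  haveI := isAlgebraic_adjoin_of_transcendental x hf
  haveI : Algebra.EssFiniteType K⟮f⟯ F := Algebra.EssFiniteType.of_comp K K⟮f⟯ F
  exact Algebra.finite_of_essFiniteType_of_isAlgebraic

end Exchange

section Principal

omit [CharZero K] in
/-- Elements algebraic over the constant field have order zero at every place. -/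
theorem ord_eq_zero_of_isAlgebraic (v : Place K F) {f : F} (hf : IsAlgebraic K f) :
    v.ord f = 0 := by
  have key : ∀ g : F, IsAlgebraic K g → 0 ≤ v.ord g := by
    intro g hg
    apply ord_nonneg_of_mem
    have hint : IsIntegral v.toValuationSubring g := hg.isIntegral.tower_top
    obtain ⟨y, hy⟩ :=
      (IsIntegrallyClosed.isIntegral_iff (R := v.toValuationSubring) (K := F)).mp hint
    rw [← hy]
    exact y.2
  have h1 := key f hf
  have h2 := key f⁻¹ hf.inv
  rw [v.ord_inv] at h2
  omega

variable (x : F) [FiniteDimensional K⟮x⟯ F]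

/-- A function field in one variable of characteristic zero has principal divisors of degree
zero (in the prelude's sense). -/
theorem hasPrincipalDivisors (_hx : Transcendental K x) : HasPrincipalDivisors K F := by
  refine ⟨fun f _ => ?_⟩
  by_cases hf : IsAlgebraic K f
  · refine ⟨0, fun v => ?_, map_zero _⟩
    rw [ord_eq_zero_of_isAlgebraic v hf]
    rfl
  · have hf' : Transcendental K f := hf
    haveI := finiteDimensional_adjoin_of_transcendental x hf'
    exact ⟨divisorOfTranscendental f hf', fun v => rfl, degree_divisorOfTranscendental f hf'⟩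

/-- The divisor of a nonzero function. -/
theorem exists_divisor (hx : Transcendental K x) {f : F} (hf : f ≠ 0) :
    ∃ D : Divisor K F, (∀ v : Place K F, D v = v.ord f) ∧ Divisor.degree D = 0 :=
  (hasPrincipalDivisors x hx).exists_divisor f hf

end Principal

end Fermat.Agent.ProgramR.FF
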