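import Mathlib
import Fermat.Agent.ProgramR.FunctionField.Divisor

/-!
# Places of a function field over an algebraically closed constant field (Program R, R1)

Over an algebraically closed constant field every place has degree one: every element of the
valuation ring is congruent to a constant modulo the maximal ideal.
-/

set_option autoImplicit false
set_option linter.unusedSectionVars false
set_option linter.style.haveILetI false

namespace Fermat.Agent.ProgramR.FF

open AlgebraicCurve IsDedekindDomain WithZero IntermediateField

variable {K F : Type*} [Field K] [Field F] [Algebra K F]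

/-- Elements integral over a subring of the valuation ring lie in the valuation ring. -/
theorem mem_of_isIntegral_of_le (v : Place K F) {S : Type*} [CommRing S] [Algebra S F]
    (hS : ∀ s : S, algebraMap S F s ∈ v.toValuationSubring) {f : F} (hf : IsIntegral S f) :
    f ∈ v.toValuationSubring := by
  obtain ⟨q, hmonic, hq⟩ := hf
  let φ : S →+* v.toValuationSubring :=
    (algebraMap S F).codRestrict v.toValuationSubring.toSubring hS
  have hint : IsIntegral v.toValuationSubring f := by
    refine ⟨q.map φ, hmonic.map φ, ?_⟩
    rw [Polynomial.eval₂_map]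
    exact hq
  obtain ⟨y, hy⟩ := (IsIntegrallyClosed.isIntegral_iff (R := v.toValuationSubring) (K := F)).mp hint
  rw [← hy]
  exact y.2

/-- Membership in the maximal ideal in terms of the order function. -/
theorem mem_maximalIdeal_iff (v : Place K F) (a : v.toValuationSubring) :
    a ∈ IsLocalRing.maximalIdeal v.toValuationSubring ↔ a = 0 ∨ 0 < v.ord (a : F) := by
  rcases eq_or_ne a 0 with rfl | ha
  · simp
  have haF : (a : F) ≠ 0 := by
    simpa [ne_eq, ZeroMemClass.coe_eq_zero] using ha
  rw [← v.heightOneSpectrum_asIdeal, ← HeightOneSpectrum.intValuation_lt_one_iff_mem,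
    ← v.adicValuation_coe]
  have h0 : v.adicValuation (a : F) ≠ 0 := v.adicValuation_ne_zero haF
  rw [← log_lt_log h0 one_ne_zero, log_one]
  unfold Place.ord
  constructor
  · intro h
    right
    omega
  · rintro (h | h)
    · exact absurd h ha
    · omega

section AlgClosed

theorem coe_eval₂_algebraMap (v : Place K F) (b : v.toValuationSubring) (g : Polynomial K) :
    ((g.eval₂ (algebraMap K v.toValuationSubring) b : v.toValuationSubring) : F) =
      g.eval₂ (algebraMap K F) (b : F) := by
  have h := Polynomial.hom_eval₂ g (algebraMap K v.toValuationSubring)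
    (v.toValuationSubring.subtype) b
  have hc : v.toValuationSubring.subtype.comp (algebraMap K v.toValuationSubring) =
      algebraMap K F := by
    ext a
    rfl
  rw [hc] at h
  exact h

theorem residue_eval₂_algebraMap (v : Place K F) (b : v.toValuationSubring) (g : Polynomial K) :
    IsLocalRing.residue v.toValuationSubring (g.eval₂ (algebraMap K v.toValuationSubring) b) =
      Polynomial.aeval (IsLocalRing.residue v.toValuationSubring b) g := by
  rw [Polynomial.aeval_def]
  have h := Polynomial.hom_eval₂ g (algebraMap K v.toValuationSubring)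
    (IsLocalRing.residue v.toValuationSubring) b
  have hc : (IsLocalRing.residue v.toValuationSubring).comp
      (algebraMap K v.toValuationSubring) = algebraMap K v.ResidueField := by
    ext a
    rfl
  rw [hc] at h
  exact h

theorem exists_algebraMap_eq_of_isAlgebraic [IsAlgClosed K] {L : Type*} [Field L] [Algebra K L] {β : L}
    (hβ : IsAlgebraic K β) : ∃ a : K, algebraMap K L a = β := by
  have hdeg : (minpoly K β).degree = 1 :=
    IsAlgClosed.degree_eq_one_of_irreducible K (minpoly.irreducible hβ.isIntegral)
  exact minpoly.mem_range_of_degree_eq_one K β hdeg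

/-- Over an algebraically closed constant field, every element of the valuation ring of a place
is congruent to a constant. -/
theorem exists_sub_mem_maximalIdeal [IsAlgClosed K] (x : F) [FiniteDimensional K⟮x⟯ F]
    (v : Place K F) (b : v.toValuationSubring) :
    ∃ a : K, b - algebraMap K v.toValuationSubring a ∈
      IsLocalRing.maximalIdeal v.toValuationSubring := by
  by_cases hb : IsAlgebraic K (b : F)
  · obtain ⟨a, ha⟩ := exists_algebraMap_eq_of_isAlgebraic hb
    refine ⟨a, ?_⟩
    have : b - algebraMap K v.toValuationSubring a = 0 := by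
      apply Subtype.ext
      push_cast
      rw [Place.coe_algebraMap, ha, sub_self]
    rw [this]
    exact Ideal.zero_mem _
  · by_contra hcon
    push Not at hcon
    -- the residue of `b` is transcendental over `K`
    have hinj : ∀ g : Polynomial K, g ≠ 0 →
        Polynomial.aeval (IsLocalRing.residue v.toValuationSubring b) g ≠ 0 := by
      intro g hg0 hg
      have hβ : IsAlgebraic K (IsLocalRing.residue v.toValuationSubring b) := ⟨g, hg0, hg⟩
      obtain ⟨a, ha⟩ := exists_algebraMap_eq_of_isAlgebraic hβ
      apply hcon a
      rw [← IsLocalRing.residue_eq_zero_iff, map_sub, ← ha, sub_eq_zero]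
      rfl
    -- values of nonzero polynomials are units of the valuation ring
    have hunit : ∀ g : Polynomial K, g ≠ 0 →
        (g.eval₂ (algebraMap K F) (b : F))⁻¹ ∈ v.toValuationSubring := by
      intro g hg0
      have h1 : g.eval₂ (algebraMap K v.toValuationSubring) b ∉
          IsLocalRing.maximalIdeal v.toValuationSubring := by
        rw [← IsLocalRing.residue_eq_zero_iff, residue_eval₂_algebraMap]
        exact hinj g hg0
      rw [IsLocalRing.mem_maximalIdeal, mem_nonunits_iff, not_not] at h1
      obtain ⟨u, hu⟩ := h1
      have h2 : ((u : v.toValuationSubring) : F) = g.eval₂ (algebraMap K F) (b : F) := by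
        rw [hu, coe_eval₂_algebraMap]
      have h3 : ((u : v.toValuationSubring) : F) *
          (((u⁻¹ : v.toValuationSubringˣ) : v.toValuationSubring) : F) = 1 := by
        rw [← MulMemClass.coe_mul, Units.mul_inv, OneMemClass.coe_one]
      rw [← h2, inv_eq_of_mul_eq_one_right h3]
      exact ((u⁻¹ : v.toValuationSubringˣ) : v.toValuationSubring).2
    -- hence `K(b)` lies in the valuation ring
    have hsub : ∀ y : K⟮(b : F)⟯, algebraMap K⟮(b : F)⟯ F y ∈ v.toValuationSubring := by
      rintro ⟨y, hy⟩
      show y ∈ v.toValuationSubring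
      obtain ⟨r, s, rfl⟩ := (IntermediateField.mem_adjoin_simple_iff K y).mp hy
      rw [Polynomial.aeval_def, Polynomial.aeval_def, div_eq_mul_inv]
      refine v.toValuationSubring.mul_mem _ _ ?_ ?_
      · rw [← coe_eval₂_algebraMap]
        exact (r.eval₂ (algebraMap K v.toValuationSubring) b).2
      · rcases eq_or_ne s 0 with rfl | hs
        · rw [Polynomial.eval₂_zero, inv_zero]
          exact v.toValuationSubring.zero_mem
        · exact hunit s hs
    -- so everything does
    haveI := isAlgebraic_adjoin_of_transcendental x (f := (b : F)) hb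
    apply v.ne_top'
    refine SetLike.ext fun f => ⟨fun _ => ValuationSubring.mem_top f, fun _ => ?_⟩
    exact mem_of_isIntegral_of_le v hsub (Algebra.IsIntegral.isIntegral (R := K⟮(b : F)⟯) f)

theorem algebraMap_residueField_surjective [IsAlgClosed K] (x : F) [FiniteDimensional K⟮x⟯ F]
    (v : Place K F) : Function.Surjective (algebraMap K v.ResidueField) := by
  intro y
  obtain ⟨b, rfl⟩ := IsLocalRing.residue_surjective y
  obtain ⟨a, ha⟩ := exists_sub_mem_maximalIdeal x v b
  refine ⟨a, ?_⟩
  rw [← IsLocalRing.residue_eq_zero_iff, map_sub, sub_eq_zero] at ha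
  rw [ha]
  rfl

/-- Over an algebraically closed constant field all places have degree one. -/
theorem deg_eq_one [IsAlgClosed K] (x : F) [FiniteDimensional K⟮x⟯ F] (v : Place K F) :
    v.deg = 1 := by
  have hbij : Function.Bijective (Algebra.linearMap K v.ResidueField) :=
    ⟨(algebraMap K v.ResidueField).injective, algebraMap_residueField_surjective x v⟩
  have e := LinearEquiv.ofBijective (Algebra.linearMap K v.ResidueField) hbij
  rw [Place.deg, ← e.finrank_eq, Module.finrank_self]

/-- Over an algebraically closed constant field, the degree of a divisor is the sum of its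
coefficients. -/
theorem degree_eq_sum_coeff [IsAlgClosed K] (x : F) [FiniteDimensional K⟮x⟯ F]
    (D : Divisor K F) : Divisor.degree D = ∑ v ∈ D.support, D v := by
  rw [degree_eq_sum]
  refine Finset.sum_congr rfl fun v _ => ?_
  rw [deg_eq_one x v, Nat.cast_one, mul_one]

/-- Fibre over `a`, algebraically closed constants: `∑ e_v = [F : K(x)]`. -/
theorem sum_fibre_ord [IsAlgClosed K] [CharZero K] (x : F) [FiniteDimensional K⟮x⟯ F]
    (hx : Transcendental K x) (a : K) (S : Finset (Place K F))
    (hS : ∀ v, v ∈ S ↔ 0 < v.ord (x - algebraMap K F a)) :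
    ∑ v ∈ S, v.ord (x - algebraMap K F a) = (Module.finrank K⟮x⟯ F : ℤ) := by
  rw [← sum_fibre x hx a S hS]
  refine Finset.sum_congr rfl fun v _ => ?_
  rw [deg_eq_one x v, Nat.cast_one, mul_one]

/-- Fibre over `a`, algebraically closed constants: `∑ (e_v - 1) = [F : K(x)] - #fibre`. -/
theorem sum_fibre_ord_sub_one [IsAlgClosed K] [CharZero K] (x : F) [FiniteDimensional K⟮x⟯ F]
    (hx : Transcendental K x) (a : K) (S : Finset (Place K F))
    (hS : ∀ v, v ∈ S ↔ 0 < v.ord (x - algebraMap K F a)) :
    ∑ v ∈ S, (v.ord (x - algebraMap K F a) - 1) = (Module.finrank K⟮x⟯ F : ℤ) - S.card := by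
  rw [Finset.sum_sub_distrib, sum_fibre_ord x hx a S hS]
  simp

/-- Poles, algebraically closed constants: `∑ e_v = [F : K(x)]`. -/
theorem sum_poles_ord [IsAlgClosed K] [CharZero K] (x : F) [FiniteDimensional K⟮x⟯ F]
    (hx : Transcendental K x) (S : Finset (Place K F)) (hS : ∀ v, v ∈ S ↔ v.ord x < 0) :
    ∑ v ∈ S, (-v.ord x) = (Module.finrank K⟮x⟯ F : ℤ) := by
  rw [← sum_poles x hx S hS]
  refine Finset.sum_congr rfl fun v _ => ?_
  rw [deg_eq_one x v, Nat.cast_one, mul_one]

/-- Poles, algebraically closed constants: `∑ (-e_v - 1) = -[F : K(x)] - #poles`. -/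
theorem sum_poles_neg_ord_sub_one [IsAlgClosed K] [CharZero K] (x : F)
    [FiniteDimensional K⟮x⟯ F] (hx : Transcendental K x) (S : Finset (Place K F))
    (hS : ∀ v, v ∈ S ↔ v.ord x < 0) :
    ∑ v ∈ S, (v.ord x - 1) = -(Module.finrank K⟮x⟯ F : ℤ) - S.card := by
  have h := sum_poles_ord x hx S hS
  rw [Finset.sum_neg_distrib] at h
  rw [Finset.sum_sub_distrib]
  simp only [Finset.sum_const, nsmul_eq_mul, mul_one]
  omega

end AlgClosed

end Fermat.Agent.ProgramR.FF
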